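/-
S56 / block EC-RED (helper114) : reduction of the base case of EC-IND
(`e (IndMod (D ⧸ C) N) = 1`, `C` cyclic of order prime to `p`) to the modules
`P(γ_s) IndMod D A` (`PolyRange`), `A` a fixed `D`-module of order `p`.   DEFINITIONS.

* `CoInd C V`   : for a `C`-module `V` the `D`-module `{F : D → V | c • F (x c) = F x}`
                  (`D` acts by left translations), a stable subgroup of `PFun V D`.
* `CoInd.map τ` : functoriality in `V`.
* `Lam C A`     : `Λ = Map(C, A)` with `C` acting by left translations (`PFun A C`).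
* `theta s hs`  : the operator `(θ λ)(c) = s • λ (c s)` of `Λ`.
* `toI C A`     : `IndMod D A → CoInd C Λ`, `f ↦ (x ↦ (c ↦ (x c)⁻¹ • f (x c)))`.
* `qv β`        : `Λ → V`, `λ ↦ ∑_c c • β (λ c)`.
* `dlt c₀ a`    : the element of `Λ` supported at `c₀` with value `a`.
-/
import Fermat.Agent.S56.EC.Defs
import Fermat.Agent.S56.EC.Ind.Basic

set_option autoImplicit false

namespace Fermat.Agent.S56.EC.Red

open Fermat.Agent.S55 Fermat.Agent.S56.EC Fermat.Agent.S56.EC.Ind Polynomial

variable {D : Type} [Group D]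

/-- The coinduced module `{F : D → V | c • F (x c) = F x}`. -/
def CoInd (C : Subgroup D) (V : Type) [AddCommGroup V] [DistribMulAction C V] :
    GSub D (Ind.PFun V D) where
  carrier := {F | ∀ (c : C) (x : D), c • F (x * c) = F x}
  zero_mem' := fun c _ => smul_zero c
  add_mem' := fun {F F'} h h' c x => by
    show c • (F (x * c) + F' (x * c)) = F x + F' x
    rw [smul_add, h, h']
  neg_mem' := fun {F} h c x => by
    show c • (-(F (x * c))) = -F x
    rw [smul_neg, h]
  smul_mem' g F hF := fun c x => by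
    show c • F (g⁻¹ • (x * c)) = F (g⁻¹ • x)
    rw [smul_eq_mul, smul_eq_mul, ← mul_assoc]
    exact hF c _

theorem mem_coInd (C : Subgroup D) (V : Type) [AddCommGroup V] [DistribMulAction C V]
    (F : Ind.PFun V D) :
    F ∈ (CoInd C V).toAddSubgroup ↔ ∀ (c : C) (x : D), c • F (x * c) = F x := Iff.rfl

section map

variable {C : Subgroup D} {V W : Type} [AddCommGroup V] [DistribMulAction C V]
  [AddCommGroup W] [DistribMulAction C W]

/-- Evaluation `CoInd C V → V` at a point of `D`. -/
def CoInd.ev (x : D) : (CoInd C V).Mod →+ V where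
  toFun F := (CoInd C V).incl F x
  map_zero' := rfl
  map_add' _ _ := rfl

theorem CoInd.ev_apply (x : D) (F : (CoInd C V).Mod) :
    CoInd.ev x F = (CoInd C V).incl F x := rfl

theorem CoInd.ext {F F' : (CoInd C V).Mod} (h : ∀ x, CoInd.ev x F = CoInd.ev x F') : F = F' :=
  (CoInd C V).incl_injective (Ind.PFun.ext h)

theorem CoInd.ev_smul (g x : D) (F : (CoInd C V).Mod) :
    CoInd.ev x (g • F) = CoInd.ev (g⁻¹ * x) F := rfl

theorem CoInd.smul_ev_mul (c : C) (x : D) (F : (CoInd C V).Mod) :
    c • CoInd.ev (x * c) F = CoInd.ev x F := (CoInd C V).incl_mem F c x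

/-- Functoriality of `CoInd` in the `C`-module. -/
def CoInd.map (τ : V →+[C] W) : (CoInd C V).Mod →+[D] (CoInd C W).Mod where
  toFun F := (CoInd C W).mkMod (Ind.PFun.of fun x => τ (CoInd.ev x F)) (fun c x => by
    show c • τ (CoInd.ev (x * c) F) = τ (CoInd.ev x F)
    rw [← map_smul, CoInd.smul_ev_mul])
  map_smul' _ _ := rfl
  map_zero' := CoInd.ext fun _ => map_zero τ
  map_add' F F' := CoInd.ext fun x => map_add τ (CoInd.ev x F) (CoInd.ev x F')

@[simp] theorem CoInd.ev_map (τ : V →+[C] W) (x : D) (F : (CoInd C V).Mod) :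
    CoInd.ev x (CoInd.map τ F) = τ (CoInd.ev x F) := rfl

end map

/-- `Λ = Map(C, A)`, with `C` acting by left translations only. -/
abbrev Lam (C : Subgroup D) (A : Type) : Type := Ind.PFun A C

section theta

variable (C : Subgroup D) (A : Type) [AddCommGroup A] [DistribMulAction D A]

/-- The operator `(θ λ)(c) = s • λ (c s)` of `Λ` (`s ∈ C`); it commutes with `C`. -/
def theta (s : C) : Lam C A →+[C] Lam C A where
  toFun l := Ind.PFun.of fun c => (s : D) • l (c * s)
  map_smul' c l := by
    ext c'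
    show (s : D) • l (c⁻¹ • (c' * s)) = (s : D) • l (c⁻¹ • c' * s)
    rw [smul_eq_mul, smul_eq_mul, mul_assoc]
  map_zero' := by
    ext c
    exact smul_zero _
  map_add' l l' := by
    ext c
    exact smul_add _ _ _

@[simp] theorem theta_apply (s : C) (l : Lam C A) (c : C) :
    theta C A s l c = (s : D) • l (c * s) := rfl

/-- `IndMod D A → CoInd C Λ`, `f ↦ (x ↦ (c ↦ (x c)⁻¹ • f (x c)))`. -/
def toI : IndMod D A →+[D] (CoInd C (Lam C A)).Mod where
  toFun f := (CoInd C (Lam C A)).mkMod
    (Ind.PFun.of fun x => Ind.PFun.of fun c : C => (x * c)⁻¹ • f (x * c)) (fun c x => by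
      ext c'
      show (x * c * (c⁻¹ • c' : C))⁻¹ • f (x * c * (c⁻¹ • c' : C)) = (x * c')⁻¹ • f (x * c')
      have : x * (c : D) * ((c⁻¹ • c' : C) : D) = x * c' := by
        rw [smul_eq_mul, Subgroup.coe_mul, Subgroup.coe_inv, mul_assoc, mul_inv_cancel_left]
      rw [this])
  map_smul' g f := by
    apply CoInd.ext
    intro x
    ext c
    show (x * c)⁻¹ • g • f (g⁻¹ • (x * c)) = (g⁻¹ * x * c)⁻¹ • f (g⁻¹ * x * c)
    rw [smul_smul, smul_eq_mul, mul_assoc g⁻¹ x c]
    congr 1
    group
  map_zero' := by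
    apply CoInd.ext
    intro x
    ext c
    exact smul_zero _
  map_add' f f' := by
    apply CoInd.ext
    intro x
    ext c
    exact smul_add _ _ _

theorem toI_apply (f : IndMod D A) (x : D) (c : C) :
    CoInd.ev x (toI C A f) c = (x * c)⁻¹ • f (x * c) := rfl

end theta

section qv

variable {C : Subgroup D} [Finite C] {A V : Type} [AddCommGroup A] [AddCommGroup V]
  [DistribMulAction C V]

/-- `Λ → V`, `λ ↦ ∑_c c • β (λ c)`. -/
noncomputable def qv (β : A →+ V) : Lam C A →+[C] V where
  toFun l := ∑ᶠ c : C, c • β (l c)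
  map_smul' c l := by
    show ∑ᶠ c' : C, c' • β (l (c⁻¹ • c')) = c • ∑ᶠ c' : C, c' • β (l c')
    rw [smul_finsum' _ (Set.toFinite _)]
    rw [← finsum_comp_equiv (MulAction.toPerm c) (f := fun c' : C => c' • β (l (c⁻¹ • c')))]
    refine finsum_congr fun c' => ?_
    show (c • c') • β (l (c⁻¹ • c • c')) = c • c' • β (l c')
    rw [inv_smul_smul, smul_eq_mul, mul_smul]
  map_zero' := by
    show ∑ᶠ c : C, c • β ((0 : Lam C A) c) = 0
    simp
  map_add' l l' := by
    show ∑ᶠ c : C, c • β ((l + l') c) = (∑ᶠ c : C, c • β (l c)) + ∑ᶠ c : C, c • β (l' c)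
    rw [← finsum_add_distrib (Set.toFinite _) (Set.toFinite _)]
    refine finsum_congr fun c => ?_
    rw [Ind.PFun.add_apply, map_add, smul_add]

theorem qv_apply (β : A →+ V) (l : Lam C A) : qv β l = ∑ᶠ c : C, c • β (l c) := rfl

end qv

open Classical in
/-- The function `c₀ ↦ a`, `c ↦ 0` for `c ≠ c₀`. -/
noncomputable def dlt {C : Subgroup D} {A : Type} [AddCommGroup A] (c₀ : C) (a : A) : Lam C A :=
  Ind.PFun.of fun c => if c = c₀ then a else 0

open Classical in
theorem dlt_apply {C : Subgroup D} {A : Type} [AddCommGroup A] (c₀ c : C) (a : A) :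
    dlt c₀ a c = if c = c₀ then a else 0 := rfl

end Fermat.Agent.S56.EC.Red
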