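/-
S56 / EC-RED : `Red/Cyc.lean` (leaf RED-4).
`theta_iterate`: `(θ^k l) c = s^k • l (c s^k)`; `θ^m = 1` if `s^m = 1`;
`lam_cyclic`: `Λ = Map(C, A)` is generated by `dlt 1 a₀` under `θ`;
`theta_mem`: a `C`-stable subgroup of `Λ` is `θ`-stable; `lam_tors`.
-/
import Fermat.Agent.S56.EC.Red.Defs

set_option autoImplicit false

namespace Fermat.Agent.S56.EC.Red

open Fermat.Agent.S55 Fermat.Agent.S56.EC Fermat.Agent.S56.EC.Ind Polynomial

variable {D : Type} [Group D] (C : Subgroup D) (A : Type) [AddCommGroup A] [DistribMulAction D A]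

theorem theta_iterate (s : C) (k : ℕ) (l : Lam C A) (c : C) :
    ((theta C A s : Lam C A →+ Lam C A)^[k] l) c = ((s : D) ^ k) • l (c * s ^ k) := by
  induction k generalizing c with
  | zero => rw [Function.iterate_zero, id, pow_zero, pow_zero, one_smul, mul_one]
  | succ k ih =>
    rw [Function.iterate_succ_apply']
    show (s : D) • ((theta C A s : Lam C A →+ Lam C A)^[k] l) (c * s) = _
    rw [ih, smul_smul, ← pow_succ', mul_assoc, ← pow_succ']

theorem theta_iterate_eq (s : C) (m : ℕ) (hs : s ^ m = 1) (l : Lam C A) :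
    (theta C A s : Lam C A →+ Lam C A)^[m] l = l := by
  ext c
  have h : (s : D) ^ m = 1 := by
    have := congrArg (fun x : C => (x : D)) hs
    simpa using this
  rw [theta_iterate, hs, h, one_smul, mul_one]

/-- every `dlt c a` is of the form `Q(θ) (dlt 1 a₀)`. -/
theorem cyc_exists_dlt (s : C) (hgen : ∀ c : C, ∃ k : ℕ, c = s ^ k) (a₀ : A)
    (ha₀ : ∀ a : A, ∃ k : ℕ, a = k • a₀) (c₀ : C) (a : A) :
    ∃ Q : ℤ[X], polyAdd (theta C A s : Lam C A →+ Lam C A) Q (dlt 1 a₀) = dlt c₀ a := by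
  classical
  obtain ⟨i, hi⟩ := hgen c₀⁻¹
  obtain ⟨k, hk⟩ := ha₀ (((s : D) ^ i)⁻¹ • a)
  refine ⟨Polynomial.C (k : ℤ) * X ^ i, ?_⟩
  ext c
  rw [polyAdd_mul, polyAdd_C, polyAdd_X_pow, Ind.PFun.zsmul_apply, theta_iterate, dlt_apply,
    dlt_apply, natCast_zsmul]
  have hiff : c * s ^ i = 1 ↔ c = c₀ := by
    rw [← hi, mul_inv_eq_one]
  by_cases hc : c = c₀
  · rw [if_pos (hiff.2 hc), if_pos hc, smul_comm, ← hk, smul_inv_smul]
  · rw [if_neg (fun h => hc (hiff.1 h)), if_neg hc, smul_zero, smul_zero]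

/-- induction on the support. -/
theorem cyc_exists_of_support (s : C) (hgen : ∀ c : C, ∃ k : ℕ, c = s ^ k) (a₀ : A)
    (ha₀ : ∀ a : A, ∃ k : ℕ, a = k • a₀) (T : Finset C) :
    ∀ l : Lam C A, (∀ c, c ∉ T → l c = 0) →
      ∃ Q : ℤ[X], polyAdd (theta C A s : Lam C A →+ Lam C A) Q (dlt 1 a₀) = l := by
  classical
  induction T using Finset.induction_on with
  | empty =>
    intro l hl
    refine ⟨0, ?_⟩
    rw [polyAdd_zero]
    ext c
    exact (hl c (Finset.notMem_empty c)).symm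
  | insert c₀ T hc₀ ih =>
    intro l hl
    obtain ⟨Q₁, hQ₁⟩ := cyc_exists_dlt C A s hgen a₀ ha₀ c₀ (l c₀)
    obtain ⟨Q₂, hQ₂⟩ := ih (l - dlt c₀ (l c₀)) (by
      intro c hc
      rw [Ind.PFun.sub_apply, dlt_apply]
      by_cases h : c = c₀
      · rw [if_pos h, h, sub_self]
      · rw [if_neg h, sub_zero]
        exact hl c (by
          rw [Finset.mem_insert]
          rintro (h' | h')
          · exact h h'
          · exact hc h'))
    refine ⟨Q₁ + Q₂, ?_⟩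
    rw [polyAdd_add, hQ₁, hQ₂, add_sub_cancel]

/-- `Λ` is generated by `dlt 1 a₀` under `θ`. -/
theorem lam_cyclic [Finite C] (s : C) (hgen : ∀ c : C, ∃ k : ℕ, c = s ^ k) (a₀ : A)
    (ha₀ : ∀ a : A, ∃ k : ℕ, a = k • a₀) (l : Lam C A) :
    ∃ Q : ℤ[X], polyAdd (theta C A s : Lam C A →+ Lam C A) Q (dlt 1 a₀) = l := by
  have := Fintype.ofFinite C
  exact cyc_exists_of_support C A s hgen a₀ ha₀ Finset.univ l
    (fun c hc => absurd (Finset.mem_univ c) hc)

/-- a `C`-stable subgroup of `Λ` is `θ`-stable. -/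
theorem theta_mem (s : C) (hgen : ∀ c : C, ∃ k : ℕ, c = s ^ k) (a : ℕ)
    (ha : ∀ x : A, (s : D) • x = a • x) (K : GSub C (Lam C A)) (l : Lam C A)
    (hl : l ∈ K.toAddSubgroup) : theta C A s l ∈ K.toAddSubgroup := by
  have e : theta C A s l = a • (s⁻¹ • l) := by
    ext c
    rw [theta_apply, Ind.PFun.nsmul_apply, Ind.PFun.smul_apply, inv_inv, smul_eq_mul, ha]
    obtain ⟨k, rfl⟩ := hgen c
    rw [← pow_succ, ← pow_succ']
  rw [e]
  exact K.toAddSubgroup.nsmul_mem (K.smul_mem' s⁻¹ hl) a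

theorem lam_tors {p : ℕ} (hA : ∀ a : A, p • a = 0) (l : Lam C A) : p • l = 0 := by
  ext c
  rw [Ind.PFun.nsmul_apply, hA, Ind.PFun.zero_apply]

end Fermat.Agent.S56.EC.Red
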