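/-
S56 / EC-RED : leaf RED-3 (architect helper114, proof helper111; Mathlib + `S56/EC/Defs.lean` only).
A `θ`-stable subgroup of a cyclic `𝔽_p[θ]/(θ^m - 1)`-module is cut out by an idempotent polynomial.
PROOF.  `J := {Q : ℤ[X] | Q(θ) v₀ ∈ K}` is an ideal, it contains `C p` and `X^m - 1`.  Let
`π : ℤ[X] → (ZMod p)[X]` be the reduction.  `J.map π` is principal `= (g)`; `g ∣ X^m - 1`, say
`X^m - 1 = g h`;  `X^m - 1` is separable over `ZMod p` because `p ∤ m`, hence `u g + w h = 1`.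
Let `P` be a lift of `u g`.
-/
import Fermat.Agent.S56.EC.Defs

set_option autoImplicit false

namespace Fermat.Agent.S56.EC.Red

open Fermat.Agent.S56.EC Polynomial

/-- a polynomial which is divisible by `X^m - 1` modulo `p` lies in `(p, X^m - 1)`. -/
theorem Ideal_exists_of_dvd_map {p m : ℕ} (T : ℤ[X])
    (h : (X ^ m - 1 : (ZMod p)[X]) ∣ T.map (Int.castRingHom (ZMod p))) :
    ∃ Q R : ℤ[X], T = C (p : ℤ) * Q + (X ^ m - 1) * R := by
  obtain ⟨r, hr⟩ := h
  obtain ⟨R, rfl⟩ := Polynomial.map_surjective (Int.castRingHom (ZMod p))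
    (ZMod.intCast_surjective) r
  have h0 : (T - (X ^ m - 1) * R).map (Int.castRingHom (ZMod p)) = 0 := by
    rw [Polynomial.map_sub, hr, Polynomial.map_mul, Polynomial.map_sub, Polynomial.map_pow,
      Polynomial.map_X, Polynomial.map_one, sub_self]
  have h1 : C (p : ℤ) ∣ T - (X ^ m - 1) * R := by
    rw [Polynomial.C_dvd_iff_dvd_coeff]
    intro i
    have h2 := congrArg (fun q => q.coeff i) h0
    simp only [coeff_map, coeff_zero, eq_intCast] at h2
    exact (ZMod.intCast_zmod_eq_zero_iff_dvd _ p).mp h2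
  obtain ⟨Q, hQ⟩ := h1
  exact ⟨Q, R, by rw [← hQ]; ring⟩

/-- the ideal `(p, X^m - 1)` kills the module. -/
theorem Ideal_polyAdd_eq_zero {p m : ℕ} {L : Type} [AddCommGroup L]
    (θ : L →+ L) (hp : ∀ l : L, p • l = 0) (hθ : ∀ l : L, θ^[m] l = l) (T : ℤ[X])
    (h : (X ^ m - 1 : (ZMod p)[X]) ∣ T.map (Int.castRingHom (ZMod p))) (l : L) :
    polyAdd θ T l = 0 := by
  obtain ⟨Q, R, rfl⟩ := Ideal_exists_of_dvd_map T h
  rw [polyAdd_add, polyAdd_mul, polyAdd_mul, polyAdd_C, polyAdd_sub, polyAdd_X_pow, hθ,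
    polyAdd_one, sub_self, add_zero, natCast_zsmul, hp]

/-- a `θ`-stable subgroup is stable under all polynomials in `θ`. -/
theorem Ideal_polyAdd_mem {L : Type} [AddCommGroup L] (θ : L →+ L) (K : AddSubgroup L)
    (hK : ∀ l ∈ K, θ l ∈ K) (R : ℤ[X]) : ∀ l ∈ K, polyAdd θ R l ∈ K := by
  induction R using Polynomial.induction_on with
  | C n =>
    intro l hl
    rw [polyAdd_C]
    exact K.zsmul_mem hl n
  | add P Q hP hQ =>
    intro l hl
    rw [polyAdd_add]
    exact K.add_mem (hP l hl) (hQ l hl)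
  | monomial n k ih =>
    intro l hl
    rw [pow_succ, ← mul_assoc, polyAdd_mul, polyAdd_X]
    exact ih _ (hK l hl)

/-- (IDEAL) a `θ`-stable subgroup of a cyclic `𝔽_p[θ]/(θ^m - 1)`-module is cut out by an idempotent
polynomial. -/
theorem exists_idemPoly {p m : ℕ} [Fact p.Prime] (hpm : ¬ p ∣ m) {L : Type} [AddCommGroup L]
    (θ : L →+ L) (hp : ∀ l : L, p • l = 0) (hθ : ∀ l : L, θ^[m] l = l) (v₀ : L)
    (hcyc : ∀ l : L, ∃ Q : ℤ[X], polyAdd θ Q v₀ = l) (K : AddSubgroup L)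
    (hK : ∀ l ∈ K, θ l ∈ K) :
    ∃ P : ℤ[X], IsIdemPoly p m P ∧ ∀ l : L, l ∈ K ↔ polyAdd θ P l = l := by
  have hstab := Ideal_polyAdd_mem θ K hK
  have hkill := Ideal_polyAdd_eq_zero θ hp hθ
  let J : Ideal ℤ[X] :=
    { carrier := {Q | polyAdd θ Q v₀ ∈ K}
      add_mem' := fun {a b} ha hb => by
        change polyAdd θ (a + b) v₀ ∈ K
        rw [polyAdd_add]
        exact K.add_mem ha hb
      zero_mem' := by
        change polyAdd θ 0 v₀ ∈ K
        rw [polyAdd_zero]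
        exact K.zero_mem
      smul_mem' := fun c {a} ha => by
        change polyAdd θ (c * a) v₀ ∈ K
        rw [polyAdd_mul]
        exact hstab c _ ha }
  have hJ : ∀ Q : ℤ[X], Q ∈ J ↔ polyAdd θ Q v₀ ∈ K := fun _ => Iff.rfl
  let π : ℤ[X] →+* (ZMod p)[X] := Polynomial.mapRingHom (Int.castRingHom (ZMod p))
  have hπ : ∀ Q : ℤ[X], π Q = Q.map (Int.castRingHom (ZMod p)) := fun _ => rfl
  have hsurj : Function.Surjective π :=
    Polynomial.map_surjective (Int.castRingHom (ZMod p)) (ZMod.intCast_surjective)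
  obtain ⟨g, hg⟩ : ∃ g, J.map π = Ideal.span {g} :=
    (IsPrincipalIdealRing.principal (J.map π)).principal
  have hXm : π (X ^ m - 1) = X ^ m - 1 := by simp [π]
  -- `g ∣ X ^ m - 1`
  have hXJ : (X ^ m - 1 : ℤ[X]) ∈ J := by
    rw [hJ, hkill _ (by rw [← hπ, hXm])]
    exact K.zero_mem
  obtain ⟨h, hh⟩ : g ∣ X ^ m - 1 := by
    rw [← Ideal.mem_span_singleton, ← hg, ← hXm]
    exact Ideal.mem_map_of_mem π hXJ
  have hsep : (X ^ m - 1 : (ZMod p)[X]).Separable := by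
    rw [Polynomial.X_pow_sub_one_separable_iff]
    intro h0
    exact hpm ((ZMod.natCast_eq_zero_iff m p).mp h0)
  rw [hh] at hsep
  obtain ⟨u, w, huw⟩ := hsep.isCoprime
  obtain ⟨P, hP⟩ := hsurj (u * g)
  -- `P ∈ J`
  have hPJ : polyAdd θ P v₀ ∈ K := by
    have h1 : π P ∈ J.map π := by
      rw [hP, hg]
      exact Ideal.mul_mem_left _ u (Ideal.mem_span_singleton_self g)
    obtain ⟨P', hP', hPP'⟩ := (Ideal.mem_map_iff_of_surjective π hsurj).mp h1
    have h2 : polyAdd θ (P - P') v₀ = 0 := by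
      refine hkill _ ?_ v₀
      rw [← hπ, map_sub, hPP', sub_self]
      exact dvd_zero _
    rw [polyAdd_sub, sub_eq_zero] at h2
    rw [h2]
    exact hP'
  refine ⟨P, ?_, fun l => ⟨fun hl => ?_, fun hl => ?_⟩⟩
  · refine Ideal_exists_of_dvd_map _ ?_
    rw [← hπ, map_sub, map_mul, hP, hh]
    refine ⟨-(u * w), ?_⟩
    linear_combination (u * g) * huw
  · obtain ⟨Q, rfl⟩ := hcyc l
    have h1 : π Q ∈ J.map π := Ideal.mem_map_of_mem π hl
    rw [hg, Ideal.mem_span_singleton] at h1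
    obtain ⟨r, hr⟩ := h1
    have h2 : polyAdd θ (P * Q - Q) v₀ = 0 := by
      refine hkill _ ?_ v₀
      rw [← hπ, map_sub, map_mul, hP, hr, hh]
      refine ⟨-(w * r), ?_⟩
      linear_combination (g * r) * huw
    rw [polyAdd_sub, polyAdd_mul, sub_eq_zero] at h2
    exact h2
  · obtain ⟨Q, rfl⟩ := hcyc l
    rw [← hl, ← polyAdd_mul, mul_comm, polyAdd_mul]
    exact hstab Q _ hPJ

end Fermat.Agent.S56.EC.Red
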