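/-
S56 / EC-RED, leaf RED-1 : exactness of coinduction (averaging over `C`, `#C` prime to `p`).
-/
import Fermat.Agent.S56.EC.Red.Defs

set_option autoImplicit false

namespace Fermat.Agent.S56.EC.Red

open Fermat.Agent.S55 Fermat.Agent.S56.EC Fermat.Agent.S56.EC.Ind

variable {D : Type} [Group D] {C : Subgroup D} {V W : Type} [AddCommGroup V]
  [DistribMulAction C V] [AddCommGroup W] [DistribMulAction C W]

/-- (LIFT) exactness of `CoInd` (averaging over `C`, `#C` prime to `p`). -/
theorem CoInd.exists_lift [Finite C] {p : ℕ} (hpC : (Nat.card C).Coprime p)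
    (hV : ∀ v : V, p • v = 0) (τ : V →+[C] W) (F : (CoInd C W).Mod)
    (hr : ∀ x, ∃ v, τ v = CoInd.ev x F) : ∃ F' : (CoInd C V).Mod, CoInd.map τ F' = F := by
  classical
  have : Fintype C := Fintype.ofFinite C
  choose f₀ hf₀ using hr
  obtain ⟨a, b, hab⟩ := Nat.isCoprime_iff_coprime.2 hpC
  have hmem : (Ind.PFun.of fun x : D => a • ∑ c : C, c • f₀ (x * c)) ∈
      (CoInd C V).toAddSubgroup := by
    intro c' x
    show c' • (a • ∑ c : C, c • f₀ (x * c' * c)) = a • ∑ c : C, c • f₀ (x * c)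
    rw [smul_comm c' a, Finset.smul_sum]
    congr 1
    rw [← Equiv.sum_comp (Equiv.mulLeft c') (fun c : C => c • f₀ (x * c))]
    refine Finset.sum_congr rfl fun c _ => ?_
    show c' • c • f₀ (x * c' * c) = (c' * c) • f₀ (x * ((c' * c : C) : D))
    rw [mul_smul, Subgroup.coe_mul, mul_assoc]
  refine ⟨(CoInd C V).mkMod _ hmem, CoInd.ext fun x => ?_⟩
  rw [CoInd.ev_map]
  show τ (a • ∑ c : C, c • f₀ (x * c)) = CoInd.ev x F
  have h1 : τ (a • ∑ c : C, c • f₀ (x * c)) = a • ∑ c : C, c • τ (f₀ (x * c)) := by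
    rw [map_zsmul, map_sum]
    congr 1
    exact Finset.sum_congr rfl fun c _ => map_smul τ c _
  have h2 : ∑ c : C, c • τ (f₀ (x * c)) = (Nat.card C) • CoInd.ev x F := by
    rw [Nat.card_eq_fintype_card, ← Finset.card_univ, ← Finset.sum_const]
    refine Finset.sum_congr rfl fun c _ => ?_
    rw [hf₀, CoInd.smul_ev_mul]
  have h3 : p • CoInd.ev x F = 0 := by
    rw [← hf₀, ← map_nsmul, hV, map_zero]
  rw [h1, h2]
  have h4 : (1 : ℤ) • CoInd.ev x F = a • (Nat.card C) • CoInd.ev x F + b • p • CoInd.ev x F := by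
    rw [← hab, add_smul, mul_smul, mul_smul, natCast_zsmul, natCast_zsmul]
  rw [h3, smul_zero, add_zero, one_smul] at h4
  exact h4.symm

theorem CoInd.map_surjective [Finite C] {p : ℕ} (hpC : (Nat.card C).Coprime p)
    (hV : ∀ v : V, p • v = 0) (τ : V →+[C] W) (hτ : Function.Surjective τ) :
    Function.Surjective (CoInd.map (D := D) τ) :=
  fun F => CoInd.exists_lift hpC hV τ F fun _ => hτ _

/-- `CoInd C V` is finite and killed by `p` if `V` is (and `D` is finite). -/
theorem CoInd.isCp [Finite D] {p : ℕ} (hV : IsCp p V) : IsCp p (CoInd (D := D) C V).Mod := by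
  have := hV.finite
  refine ⟨?_, fun F => CoInd.ext fun x => ?_⟩
  · have : Finite (Ind.PFun V D) := inferInstanceAs (Finite (D → V))
    exact Finite.of_injective _ (CoInd C V).incl_injective
  · rw [map_nsmul, hV.tors, map_zero]

theorem CoInd.subsingleton [Subsingleton V] : Subsingleton (CoInd (D := D) C V).Mod :=
  ⟨fun _ _ => CoInd.ext fun _ => Subsingleton.elim _ _⟩

end Fermat.Agent.S56.EC.Red
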