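/-
S56 / EC-RED, leaf RED-6: `Map(D/C, N) ≅ CoInd_C^D (Res_C N)`, `f ↦ (x ↦ x⁻¹ • f (x C))`.
-/
import Fermat.Agent.S56.EC.Red.Defs

set_option autoImplicit false

namespace Fermat.Agent.S56.EC.Red

open Fermat.Agent.S55 Fermat.Agent.S56.EC Fermat.Agent.S56.EC.Ind

variable {D : Type} [Group D]

/-- the map `f ↦ (x ↦ x⁻¹ • f (x C))`. -/
def quotMap (C : Subgroup D) (N : Type) [AddCommGroup N] [DistribMulAction D N] :
    IndMod (D ⧸ C) N →+[D] (CoInd C (ResMod C.subtype N)).Mod where
  toFun f := (CoInd C (ResMod C.subtype N)).mkMod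
    (Ind.PFun.of fun x => ResMod.toRes C.subtype (x⁻¹ • f (QuotientGroup.mk x))) (fun c x => by
      show c • ResMod.toRes C.subtype ((x * c)⁻¹ • f (QuotientGroup.mk (x * c))) =
        ResMod.toRes C.subtype (x⁻¹ • f (QuotientGroup.mk x))
      rw [ResMod.smul_def, smul_smul, QuotientGroup.mk_mul_of_mem x c.2]
      congr 2
      show (c : D) * (x * c)⁻¹ = x⁻¹
      group)
  map_smul' g f := by
    apply CoInd.ext
    intro x
    show ResMod.toRes C.subtype (x⁻¹ • g • f (g⁻¹ • (QuotientGroup.mk x : D ⧸ C))) =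
      ResMod.toRes C.subtype ((g⁻¹ * x)⁻¹ • f (QuotientGroup.mk (g⁻¹ * x)))
    rw [smul_smul]
    congr 2
    group
  map_zero' := by
    apply CoInd.ext
    intro x
    exact smul_zero (A := N) _
  map_add' f f' := by
    apply CoInd.ext
    intro x
    exact smul_add (A := N) _ _ _

theorem quotMap_ev (C : Subgroup D) (N : Type) [AddCommGroup N] [DistribMulAction D N]
    (f : IndMod (D ⧸ C) N) (x : D) :
    CoInd.ev x (quotMap C N f) = ResMod.toRes C.subtype (x⁻¹ • f (QuotientGroup.mk x)) := rfl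

/-- `Map(D/C, N) ≅ CoInd_C^D (Res_C N)`. -/
theorem exists_indMod_coInd (C : Subgroup D) (N : Type) [AddCommGroup N] [DistribMulAction D N] :
    ∃ φ : IndMod (D ⧸ C) N →+[D] (CoInd C (ResMod C.subtype N)).Mod, Function.Bijective φ := by
  refine ⟨quotMap C N, ?_, ?_⟩
  · intro f f' h
    ext y
    induction y using QuotientGroup.induction_on with
    | H x =>
      have h1 := congrArg (CoInd.ev x) h
      rw [quotMap_ev, quotMap_ev] at h1
      exact smul_left_cancel _ ((ResMod.toRes C.subtype).injective h1)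
  · intro F
    have hwd : ∀ x y : D, QuotientGroup.leftRel C x y →
        x • (ResMod.toRes C.subtype).symm (CoInd.ev x F) =
          y • (ResMod.toRes C.subtype).symm (CoInd.ev y F) := by
      intro x y hxy
      rw [QuotientGroup.leftRel_apply] at hxy
      have h1 := CoInd.smul_ev_mul (⟨_, hxy⟩ : C) x F
      have h2 : x * ((⟨_, hxy⟩ : C) : D) = y := by
        show x * (x⁻¹ * y) = y
        group
      rw [h2] at h1
      rw [← h1]
      show x • ((x⁻¹ * y) • (ResMod.toRes C.subtype).symm (CoInd.ev y F)) = _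
      rw [smul_smul, mul_inv_cancel_left]
    refine ⟨IndMod.of (Quotient.lift
      (fun x => x • (ResMod.toRes C.subtype).symm (CoInd.ev x F)) hwd), ?_⟩
    apply CoInd.ext
    intro x
    rw [quotMap_ev]
    show ResMod.toRes C.subtype (x⁻¹ • x • (ResMod.toRes C.subtype).symm (CoInd.ev x F)) = _
    rw [inv_smul_smul, AddEquiv.apply_symm_apply]

end Fermat.Agent.S56.EC.Red
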