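/-
S56 / EC-RED : `Red/Small.lean` (leaf RED-5), proved by helper249.
`qv_dlt` and `exists_gen` (a module of prime order: generator, maps out of it, scalars).
-/
import Fermat.Agent.S56.EC.Red.Defs

set_option autoImplicit false

namespace Fermat.Agent.S56.EC.Red

open Fermat.Agent.S55 Fermat.Agent.S56.EC Fermat.Agent.S56.EC.Ind

variable {D : Type} [Group D]

theorem qv_dlt {C : Subgroup D} [Finite C] {A V : Type} [AddCommGroup A] [AddCommGroup V]
    [DistribMulAction C V] (β : A →+ V) (a : A) : qv β (dlt (1 : C) a) = β a := by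
  rw [qv_apply, finsum_eq_single _ (1 : C)]
  · rw [dlt_apply, if_pos rfl, one_smul]
  · intro c hc
    rw [dlt_apply, if_neg hc, map_zero, smul_zero]

/-- A module of prime order: generator, maps out of it, the action is by scalars. -/
theorem exists_gen {p : ℕ} [Fact p.Prime] (A : Type) [AddCommGroup A] [DistribMulAction D A]
    (hA : Nat.card A = p) :
    (∀ a : A, p • a = 0) ∧ ∃ a₀ : A, (∀ a : A, ∃ k : ℕ, a = k • a₀) ∧
      (∀ (V : Type) [AddCommGroup V] (v : V), p • v = 0 → ∃ β : A →+ V, β a₀ = v) ∧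
      ∀ g : D, ∃ k : ℕ, ∀ x : A, g • x = k • x := by
  have hp : p.Prime := Fact.out
  have : Finite A := Nat.finite_of_card_ne_zero (by rw [hA]; exact hp.ne_zero)
  have : IsAddCyclic A := isAddCyclic_of_prime_card hA
  have hpA : ∀ a : A, p • a = 0 := by
    intro a
    rw [← hA]
    exact card_nsmul_eq_zero'
  let e : ZMod p ≃+ A := (ZMod.ringEquivCongr hA.symm).toAddEquiv.trans
    (zmodAddCyclicAddEquiv (G := A) inferInstance)
  have hgen : ∀ a : A, ∃ k : ℕ, a = k • e 1 := by
    intro a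
    refine ⟨(e.symm a).val, ?_⟩
    rw [← map_nsmul, nsmul_one, ZMod.natCast_zmod_val, AddEquiv.apply_symm_apply]
  refine ⟨hpA, e 1, hgen, ?_, ?_⟩
  · intro V _ v hv
    refine ⟨(ZMod.lift p ⟨zmultiplesHom V v, by simpa using hv⟩).comp e.symm.toAddMonoidHom, ?_⟩
    have h1 : ((1 : ℤ) : ZMod p) = 1 := by simp
    simp only [AddMonoidHom.comp_apply, AddEquiv.coe_toAddMonoidHom, AddEquiv.symm_apply_apply]
    rw [← h1, ZMod.lift_coe]
    simp
  · intro g
    obtain ⟨k, hk⟩ := hgen (g • e 1)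
    refine ⟨k, fun x => ?_⟩
    obtain ⟨j, rfl⟩ := hgen x
    rw [smul_comm g j (e 1), hk, smul_comm]

end Fermat.Agent.S56.EC.Red
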