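/-
S56 / EC-RED, leaf RED-2 (architect helper114; proofs helper128): `toI : IndMod D A → CoInd C Λ` is
bijective and intertwines `pull (rightMul s)` with `θ`.
-/
import Fermat.Agent.S56.EC.Red.Defs

set_option autoImplicit false

namespace Fermat.Agent.S56.EC.Red

open Fermat.Agent.S55 Fermat.Agent.S56.EC Fermat.Agent.S56.EC.Ind Polynomial

variable {D : Type} [Group D] (C : Subgroup D) (A : Type) [AddCommGroup A] [DistribMulAction D A]

theorem toI_injective : Function.Injective (toI C A) := by
  intro f f' h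
  ext x
  have h1 : CoInd.ev x (toI C A f) 1 = CoInd.ev x (toI C A f') 1 := by rw [h]
  rw [toI_apply, toI_apply, Subgroup.coe_one, mul_one] at h1
  exact smul_left_cancel _ h1

theorem toI_surjective : Function.Surjective (toI C A) := by
  intro F
  refine ⟨IndMod.of fun x => x • (CoInd.ev x F) 1, ?_⟩
  apply CoInd.ext
  intro x
  ext c
  rw [toI_apply]
  show (x * (c : D))⁻¹ • (x * (c : D)) • (CoInd.ev (x * c) F) 1 = (CoInd.ev x F) c
  rw [inv_smul_smul, ← CoInd.smul_ev_mul c x F, Ind.PFun.smul_apply, smul_eq_mul, inv_mul_cancel]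

/-- `toI` intertwines `γ_s = pull (rightMul s)` with `θ`. -/
theorem toI_pull (s : C) (f : IndMod D A) :
    toI C A (IndMod.pull A (rightMul (s : D)) f) = CoInd.map (theta C A s) (toI C A f) := by
  apply CoInd.ext
  intro x
  ext c
  rw [toI_apply, CoInd.ev_map, theta_apply, toI_apply, IndMod.pull_apply, rightMul_apply, smul_smul,
    Subgroup.coe_mul, ← mul_assoc]
  congr 1
  group

/-- hence `P(γ_s)` with `P(θ)`, pointwise. -/
theorem ev_toI_polyMap (s : C) (P : ℤ[X]) (f : IndMod D A) (x : D) :
    CoInd.ev x (toI C A (polyMap (IndMod.pull A (rightMul (s : D))) P f)) =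
      polyAdd (theta C A s : Lam C A →+ Lam C A) P (CoInd.ev x (toI C A f)) := by
  rw [polyMap_apply]
  exact polyAdd_natural
    ((CoInd.ev x).comp (toI C A : IndMod D A →+ (CoInd C (Lam C A)).Mod))
    (IndMod.pull A (rightMul (s : D)) : IndMod D A →+ IndMod D A)
    (theta C A s : Lam C A →+ Lam C A)
    (fun a => by
      show CoInd.ev x (toI C A (IndMod.pull A (rightMul (s : D)) a)) =
        theta C A s (CoInd.ev x (toI C A a))
      rw [toI_pull, CoInd.ev_map]) P f

theorem pull_rightMul_iterate_apply (s : D) (k : ℕ) (f : IndMod D A) (x : D) :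
    ((IndMod.pull A (rightMul s) : IndMod D A →+ IndMod D A)^[k] f) x = f (x * s ^ k) := by
  induction k generalizing f with
  | zero => simp
  | succ k ih =>
    rw [Function.iterate_succ_apply, ih]
    show f (x * s ^ k * s) = f (x * s ^ (k + 1))
    rw [pow_succ, mul_assoc]

/-- `γ_s^m = 1` if `s^m = 1`. -/
theorem pull_rightMul_iterate (s : D) (m : ℕ) (hs : s ^ m = 1) (f : IndMod D A) :
    (IndMod.pull A (rightMul s) : IndMod D A →+ IndMod D A)^[m] f = f := by
  ext x
  rw [pull_rightMul_iterate_apply, hs, mul_one]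

end Fermat.Agent.S56.EC.Red
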