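/-
S56 / EC-RED : ASSEMBLY (helper114).  `Red.base_of_poly`: the base case of EC-IND follows from
`e (P(γ_s) IndMod D A) = 1` for all idempotent polynomials.
-/
import Fermat.Agent.S56.EC.Red.Lift
import Fermat.Agent.S56.EC.Red.ToI
import Fermat.Agent.S56.EC.Red.Ideal
import Fermat.Agent.S56.EC.Red.Cyc
import Fermat.Agent.S56.EC.Red.Small
import Fermat.Agent.S56.EC.Red.Quot

set_option autoImplicit false

namespace Fermat.Agent.S56.EC.Red

open Fermat.Agent.S55 Fermat.Agent.S56.EC Fermat.Agent.S56.EC.Ind Polynomial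

variable {D : Type} [Group D] {p : ℕ} (E : MultFun D p)
  (A : Type) [AddCommGroup A] [DistribMulAction D A]

/-- The hypothesis: `e = 1` on the modules `P(γ_s) IndMod D A`. -/
def PolyHyp : Prop :=
  ∀ (s : D) (m : ℕ), ¬ p ∣ m → s ^ m = 1 → ∀ P : ℤ[X], IsIdemPoly p m P →
    E.e (PolyRange (IndMod.pull A (rightMul s)) P) = 1

variable {E A}

theorem e_indMod_self [Finite D] [Fact p.Prime] (H : PolyHyp E A) (hA : IsCp p A) :
    E.e (IndMod D A) = 1 := by
  have hp : p.Prime := Fact.out
  have h1 : IsIdemPoly p 1 1 := ⟨0, 0, by simp⟩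
  rw [← H 1 1 (fun h => hp.one_lt.ne' (Nat.dvd_one.1 h)) (one_pow 1) 1 h1]
  refine E.e_congr (GSub.rangeRestrict (polyMap (IndMod.pull A (rightMul (1 : D))) 1))
    ⟨fun f f' h => ?_, GSub.rangeRestrict_surjective _⟩ (IsCp.gsubMod (IsCp.indMod D hA) _)
  have := congrArg (GSub.range (polyMap (IndMod.pull A (rightMul (1 : D))) 1)).incl h
  rwa [GSub.incl_rangeRestrict, GSub.incl_rangeRestrict, polyMap_apply, polyMap_apply,
    polyAdd_one, polyAdd_one] at this

/-- KEY STEP: the image of `IndMod D A → CoInd C Λ → CoInd C V` has `e = 1`. -/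
theorem e_range_eq_one [Finite D] [Fact p.Prime] (H : PolyHyp E A) (hA : IsCp p A)
    (C : Subgroup D) (s : C) (hgen : ∀ c : C, ∃ k : ℕ, c = s ^ k) (hpC : ¬ p ∣ Nat.card C)
    (a₀ : A) (ha₀ : ∀ a : A, ∃ k : ℕ, a = k • a₀) (a : ℕ) (ha : ∀ x : A, (s : D) • x = a • x)
    {V : Type} [AddCommGroup V] [DistribMulAction C V] (β : A →+ V) :
    E.e (GSub.range ((CoInd.map (D := D) (qv β)).comp (toI C A))).Mod = 1 := by
  set r := (CoInd.map (D := D) (qv β)).comp (toI C A) with hr
  have hsm : s ^ Nat.card C = 1 := pow_card_eq_one'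
  have hsm' : (s : D) ^ Nat.card C = 1 := by
    rw [← Subgroup.coe_pow, hsm, Subgroup.coe_one]
  obtain ⟨P, hP, hK⟩ := exists_idemPoly hpC (theta C A s : Lam C A →+ Lam C A)
    (lam_tors C A hA.tors) (theta_iterate_eq C A s _ hsm) (dlt 1 a₀)
    (lam_cyclic C A s hgen a₀ ha₀) (GSub.ker (qv (C := C) β)).toAddSubgroup
    (fun l hl => theta_mem C A s hgen a ha _ l hl)
  have hI : IsCp p (IndMod D A) := IsCp.indMod D hA
  have h1 := E.e_ker_range r hI
  have hidem : ∀ f : IndMod D A, polyMap (IndMod.pull A (rightMul (s : D))) P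
      (polyMap (IndMod.pull A (rightMul (s : D))) P f) =
      polyMap (IndMod.pull A (rightMul (s : D))) P f := fun f =>
    polyAdd_idem hP _ hI.tors (pull_rightMul_iterate A (s : D) _ hsm') f
  have hfix : ∀ f : IndMod D A, r f = 0 ↔ polyMap (IndMod.pull A (rightMul (s : D))) P f = f := by
    intro f
    constructor
    · intro h0
      apply toI_injective C A
      apply CoInd.ext
      intro x
      rw [ev_toI_polyMap]
      apply (hK _).1
      show qv β (CoInd.ev x (toI C A f)) = 0
      have := congrArg (CoInd.ev x) h0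
      rwa [map_zero] at this
    · intro h0
      apply CoInd.ext
      intro x
      rw [map_zero]
      show qv β (CoInd.ev x (toI C A f)) = 0
      apply (GSub.mem_ker _ _).1
      apply (hK _).2
      rw [← ev_toI_polyMap, h0]
  have h2 : E.e (GSub.ker r).Mod = E.e (PolyRange (IndMod.pull A (rightMul (s : D))) P) := by
    apply E.e_gsub_congr
    intro f
    rw [GSub.mem_ker, GSub.mem_range, hfix]
    constructor
    · intro h
      exact ⟨f, h⟩
    · rintro ⟨f', rfl⟩
      exact hidem f'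
  rw [h2, H (s : D) _ hpC hsm' P hP, e_indMod_self H hA, one_mul] at h1
  exact h1.symm

/-- `e (CoInd C V) = 1` for every `C`-module `V` in `Cp`. -/
theorem e_coInd [Finite D] [Fact p.Prime] (H : PolyHyp E A) (hA : Nat.card A = p)
    (C : Subgroup D) (s : C) (hgen : ∀ c : C, ∃ k : ℕ, c = s ^ k) (hpC : ¬ p ∣ Nat.card C) :
    ∀ (n : ℕ) (V : Type) [AddCommGroup V] [DistribMulAction C V], IsCp p V → Nat.card V ≤ n →
      E.e (CoInd (D := D) C V).Mod = 1 := by
  have hp : p.Prime := Fact.out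
  obtain ⟨hAt, a₀, ha₀, hβ, hsc⟩ := exists_gen (D := D) A hA
  have hAcp : IsCp p A := ⟨Nat.finite_of_card_ne_zero (by rw [hA]; exact hp.ne_zero), hAt⟩
  obtain ⟨a, ha⟩ := hsc (s : D)
  have hcop : (Nat.card C).Coprime p := ((Nat.Prime.coprime_iff_not_dvd hp).2 hpC).symm
  intro n
  induction n with
  | zero =>
    intro V _ _ hV hn
    have := hV.finite
    exact absurd (Nat.le_zero.1 hn) Nat.card_pos.ne'
  | succ n ih =>
    intro V _ _ hV hn
    have := hV.finite
    by_cases hsub : Subsingleton V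
    · have := CoInd.subsingleton (D := D) (C := C) (V := V)
      exact E.e_subsingleton _
    · rw [not_subsingleton_iff_nontrivial] at hsub
      obtain ⟨v, hv⟩ := exists_ne (0 : V)
      obtain ⟨β, hβv⟩ := hβ V v (hV.tors v)
      set R : GSub C V := GSub.range (qv β) with hR
      have hvR : v ∈ R.toAddSubgroup := ⟨dlt 1 a₀, by
        show qv β (dlt 1 a₀) = v
        rw [qv_dlt, hβv]⟩
      have hcard : Nat.card R.Quot < Nat.card V := by
        have h1 : Nat.card V = Nat.card (V ⧸ R.toAddSubgroup) * Nat.card R.toAddSubgroup :=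
          AddSubgroup.card_eq_card_quotient_mul_card_addSubgroup _
        have h2 : 1 < Nat.card R.toAddSubgroup := by
          rw [Finite.one_lt_card_iff_nontrivial]
          exact ⟨⟨⟨v, hvR⟩, 0, fun h => hv (congrArg Subtype.val h)⟩⟩
        have h3 : 0 < Nat.card (V ⧸ R.toAddSubgroup) := Nat.card_pos
        show Nat.card (V ⧸ R.toAddSubgroup) < Nat.card V
        rw [h1]
        nlinarith
      have hQ : E.e (CoInd (D := D) C R.Quot).Mod = 1 :=
        ih R.Quot (IsCp.gsubQuot hV R) (by omega)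
      have hse : ShortExact (GSub.ker (CoInd.map (D := D) R.projG)).inclG
          (CoInd.map (D := D) R.projG) :=
        ⟨GSub.inclG_injective _, fun F => ⟨fun h => ⟨(GSub.ker _).mkMod F h, rfl⟩, by
          rintro ⟨F', rfl⟩
          exact (GSub.ker (CoInd.map (D := D) R.projG)).incl_mem F'⟩,
          CoInd.map_surjective hcop hV.tors _ R.projG_surjective⟩
      rw [E.mul _ _ _ _ _ (CoInd.isCp hV) hse, hQ, mul_one,
        ← e_range_eq_one H hAcp C s hgen hpC a₀ ha₀ a ha β]
      apply E.e_gsub_congr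
      intro F
      rw [GSub.mem_ker, GSub.mem_range]
      constructor
      · intro h0
        obtain ⟨F', hF'⟩ := CoInd.exists_lift hcop (lam_tors C A hAt) (qv β) F (fun x => by
          have h1 := congrArg (CoInd.ev x) h0
          rw [map_zero, CoInd.ev_map] at h1
          exact (R.proj_eq_zero_iff _).1 h1)
        obtain ⟨f, rfl⟩ := toI_surjective C A F'
        exact ⟨f, hF'⟩
      · rintro ⟨f, rfl⟩
        apply CoInd.ext
        intro x
        rw [map_zero, CoInd.ev_map]
        exact (R.proj_eq_zero_iff _).2 ⟨_, rfl⟩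

/-- **EC-RED**: the base case of `MultFun.eq_one` from the polynomial base case. -/
theorem base_of_poly [Finite D] [Fact p.Prime] (E : MultFun D p) (A : Type) [AddCommGroup A]
    [DistribMulAction D A] (hA : Nat.card A = p)
    (H : ∀ (s : D) (m : ℕ), ¬ p ∣ m → s ^ m = 1 → ∀ P : ℤ[X], IsIdemPoly p m P →
      E.e (PolyRange (IndMod.pull A (rightMul s)) P) = 1) :
    ∀ C : Subgroup D, IsCyclic C → ¬ p ∣ Nat.card C → ∀ (N : Type) [AddCommGroup N]
      [DistribMulAction D N], IsCp p N → E.e (IndMod (D ⧸ C) N) = 1 := by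
  intro C hC hpC N _ _ hN
  obtain ⟨s, hs⟩ := IsCyclic.exists_monoid_generator (α := C)
  have hgen : ∀ c : C, ∃ k : ℕ, c = s ^ k := fun c => by
    obtain ⟨k, hk⟩ := hs c
    exact ⟨k, hk.symm⟩
  obtain ⟨φ, hφ⟩ := exists_indMod_coInd C N
  have hN' : IsCp p (ResMod C.subtype N) := ⟨hN.finite, hN.tors⟩
  rw [E.e_congr φ hφ (CoInd.isCp hN')]
  exact e_coInd H hA C s hgen hpC _ _ hN' le_rfl

end Fermat.Agent.S56.EC.Red
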